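import Fermat.Agent.Igusa.Degree
import Fermat.Agent.SquareLevel.Tower.Field

/-!
# The conjugates of the generators over a cusp of the middle variable

Over `j(qτ) ↦ j(u^(qM))` every `j(dτ)`, `d ∣ M q²`, goes to some `j(η u^m)` with `η^(qM) = 1`.
-/

noncomputable section

open Polynomial IntermediateField ModularCurve
open Fermat.Agent.Igusa (jv evalAt evalIn IsModPoly)

namespace Fermat.Agent.SquareLevel.Cusps

variable {E : Type} [Field E] [IsAlgClosed E] [CharZero E] {Ω : Type} [Field Ω]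
  (ι : LaurentSeries E →+* Ω) {X : IntermediateField E (LaurentSeries E)} (ψ : X →+* Ω)

/-- One step along the modular equation. -/
theorem conj_step (hψC : ∀ a : E, ψ (algebraMap E X a) = ι (HahnSeries.C a)) {p : ℕ} (hp : p.Prime)
    {a b : ℕ} (ha0 : a ≠ 0) (hb0 : b ≠ 0) (hab : b = p * a ∨ a = p * b)
    (ha : jv (1 : Eˣ) a ∈ X) (hb : jv (1 : Eˣ) b ∈ X) {η : Eˣ} {m₀ : ℕ} (hm₀ : m₀ ≠ 0)
    (hψa : ψ ⟨_, ha⟩ = ι (jv η (p * m₀))) {e : ℕ} (he : η ^ e = 1) :
    ∃ (η' : Eˣ) (m' : ℕ), m' ≠ 0 ∧ m₀ ∣ m' ∧ η' ^ (p * e) = 1 ∧ ψ ⟨_, hb⟩ = ι (jv η' m') := by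
  classical
  have : Fact p.Prime := ⟨hp⟩
  obtain ⟨Φ, hΦ⟩ := Igusa.exists_isModPoly (K := E) (p := p) (Nat.cast_ne_zero.mpr hp.ne_zero)
  have hroot0 : (Φ.map (evalAt (jv (1 : Eˣ) a))).IsRoot (jv (1 : Eˣ) b) := by
    rcases hab with h | h
    · rw [h, mul_comm]; exact Igusa.isModPoly_root_up hΦ ha0
    · rw [h, mul_comm]; exact Igusa.isModPoly_root_down hΦ hb0
  have hev : (Φ.map (evalIn X ha)).eval ⟨_, hb⟩ = 0 := by
    refine (algebraMap X (LaurentSeries E)).injective ?_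
    rw [map_zero, ← Polynomial.eval_map_apply, Igusa.map_evalIn_map]
    exact hroot0
  have hcomp : ψ.comp (evalIn X ha) = ι.comp (evalAt (jv η (p * m₀))) := by
    refine Polynomial.ringHom_ext (fun a => ?_) ?_
    · simp only [RingHom.comp_apply, Igusa.evalAt_C, ← hψC]
      simp [evalIn]
    · simp only [RingHom.comp_apply, Igusa.evalAt_X, ← hψa]
      simp [evalIn]
  have hroot : ((Φ.map (evalAt (jv η (p * m₀)))).map ι).IsRoot (ψ ⟨_, hb⟩) := by
    have := congrArg ψ hev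
    rw [map_zero, ← Polynomial.eval_map_apply, Polynomial.map_map, hcomp,
      ← Polynomial.map_map] at this
    exact this
  have hne : Φ.map (evalAt (jv η (p * m₀))) ≠ 0 := (Igusa.map_evalAt_monic hΦ _).ne_zero
  have hmemroot : ψ ⟨_, hb⟩ ∈ ((Φ.map (evalAt (jv η (p * m₀)))).map ι).roots :=
    (mem_roots (Polynomial.map_ne_zero hne)).mpr hroot
  rw [(hΦ.splits η m₀ hm₀).roots_map] at hmemroot
  obtain ⟨y, hy, hyeq⟩ := Multiset.mem_map.mp hmemroot
  rw [mem_roots hne, hΦ.isRoot_iff η m₀ hm₀] at hy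
  rcases hy with rfl | ⟨η', hη', rfl⟩
  · refine ⟨η ^ p, p * p * m₀, mul_ne_zero (mul_ne_zero hp.ne_zero hp.ne_zero) hm₀,
      dvd_mul_left _ _, ?_, hyeq.symm⟩
    rw [← pow_mul, ← mul_assoc, mul_comm (p * p), pow_mul, he, one_pow]
  · exact ⟨η', m₀, hm₀, dvd_rfl, by rw [pow_mul, hη', he], hyeq.symm⟩

/-- Upwards along the divisors of `n`. -/
theorem conj_up (hψC : ∀ a : E, ψ (algebraMap E X a) = ι (HahnSeries.C a)) {a0 n e : ℕ}
    (ha0 : a0 ≠ 0) (hn : n ≠ 0) (ha : jv (1 : Eˣ) a0 ∈ X) {η₀ : Eˣ} (he : η₀ ^ e = 1)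
    (hψa : ψ ⟨_, ha⟩ = ι (jv η₀ n)) :
    ∀ d : ℕ, d ∣ n → (∀ c, c ∣ d → jv (1 : Eˣ) (c * a0) ∈ X) →
      ∃ (η : Eˣ) (m : ℕ), m ≠ 0 ∧ (n / d) ∣ m ∧ η ^ (d * e) = 1 ∧
        ∀ h : jv (1 : Eˣ) (d * a0) ∈ X, ψ ⟨_, h⟩ = ι (jv η m) := by
  intro d
  induction d using Nat.strong_induction_on with
  | _ d ih =>
    intro hdn hmem
    have hd0 : d ≠ 0 := by rintro rfl; exact hn (Nat.eq_zero_of_zero_dvd hdn)
    rcases eq_or_ne d 1 with rfl | hd1
    · refine ⟨η₀, n, hn, by rw [Nat.div_one], by rwa [one_mul], fun h => ?_⟩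
      rw [← hψa]
      exact congrArg ψ (Subtype.ext (congrArg (jv (1 : Eˣ)) (one_mul a0)))
    obtain ⟨r, hr, d', rfl⟩ := Nat.exists_prime_and_dvd hd1
    have hd'0 : d' ≠ 0 := right_ne_zero_of_mul hd0
    obtain ⟨η, m, hm0, hdvd, hη, hψ⟩ := ih d' (by nlinarith [hr.two_le, Nat.pos_of_ne_zero hd'0])
      ((dvd_mul_left d' r).trans hdn) (fun c hc => hmem c (hc.trans (dvd_mul_left d' r)))
    have hquot : n / d' = r * (n / (r * d')) := by
      obtain ⟨c, rfl⟩ := hdn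
      rw [Nat.mul_div_cancel_left _ (Nat.pos_of_ne_zero hd0),
        show r * d' * c = d' * (r * c) by ring, Nat.mul_div_cancel_left _ (Nat.pos_of_ne_zero hd'0)]
    rw [hquot] at hdvd
    obtain ⟨m₀, rfl⟩ := (dvd_mul_right r (n / (r * d'))).trans hdvd
    have hm₀ : m₀ ≠ 0 := right_ne_zero_of_mul hm0
    have hdvd' : n / (r * d') ∣ m₀ := Nat.dvd_of_mul_dvd_mul_left hr.pos hdvd
    have h1 : jv (1 : Eˣ) (d' * a0) ∈ X := hmem d' (dvd_mul_left d' r)
    have h2 : jv (1 : Eˣ) (r * d' * a0) ∈ X := hmem _ dvd_rfl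
    obtain ⟨η', m', hm', hdd, hpow, hval⟩ := conj_step ι ψ hψC hr (mul_ne_zero hd'0 ha0)
      (mul_ne_zero hd0 ha0) (Or.inl (mul_assoc r d' a0)) h1 h2 hm₀ (hψ h1) hη
    exact ⟨η', m', hm', hdvd'.trans hdd, by rwa [mul_assoc], fun _ => hval⟩

/-- All conjugates over `j(qτ) ↦ j(u^(qM))`. -/
theorem conj_all (hψC : ∀ a : E, ψ (algebraMap E X a) = ι (HahnSeries.C a)) {q M : ℕ}
    (hq : q.Prime) (hM : M ≠ 0)
    (hmem : ∀ d, d ∣ M * q * q → jv (1 : Eˣ) d ∈ X) (hjq : jv (1 : Eˣ) q ∈ X)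
    (hψq : ψ ⟨_, hjq⟩ = ι (jv (1 : Eˣ) (q * M))) :
    ∀ d, d ∣ M * q * q → ∀ h : jv (1 : Eˣ) d ∈ X,
      ∃ (η : Eˣ) (m : ℕ), m ≠ 0 ∧ η ^ (q * M) = 1 ∧ ψ ⟨_, h⟩ = ι (jv η m) := by
  intro d hd h
  by_cases hqd : q ∣ d
  · obtain ⟨c, rfl⟩ := hqd
    have hc : c ∣ q * M := by
      rw [show M * q * q = q * (q * M) by ring] at hd
      exact Nat.dvd_of_mul_dvd_mul_left hq.pos hd
    obtain ⟨η, m, hm, -, hη, hval⟩ := conj_up ι ψ hψC hq.ne_zero (mul_ne_zero hq.ne_zero hM) hjq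
      (e := 1) (one_pow _) hψq c hc (fun e he => hmem _ ((Nat.mul_dvd_mul_right he q).trans
        (by rwa [mul_comm c q])))
    refine ⟨η, m, hm, orderOf_dvd_iff_pow_eq_one.mp
      ((orderOf_dvd_of_pow_eq_one hη).trans (by rwa [mul_one])), ?_⟩
    have h' : jv (1 : Eˣ) (c * q) ∈ X := by rwa [mul_comm]
    rw [← hval h']
    exact congrArg ψ (Subtype.ext (congrArg (jv (1 : Eˣ)) (mul_comm q c)))
  · have hdM : d ∣ M := by
      have hco : Nat.Coprime d q := (hq.coprime_iff_not_dvd.mpr hqd).symm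
      exact hco.dvd_of_dvd_mul_right (hco.dvd_of_dvd_mul_right hd)
    have h1 : jv (1 : Eˣ) 1 ∈ X := hmem 1 (one_dvd _)
    obtain ⟨η₁, m₁, hm₁, hMm, hη₁, hψ1⟩ := conj_step ι ψ hψC hq hq.ne_zero one_ne_zero
      (Or.inr (mul_one q).symm) hjq h1 hM hψq (e := 1) (one_pow _)
    obtain ⟨η, m, hm, -, hη, hval⟩ := conj_up ι ψ hψC one_ne_zero hm₁ h1 hη₁ hψ1 d (hdM.trans hMm)
      (fun e he => by rw [mul_one]; exact hmem _ (he.trans hd))
    refine ⟨η, m, hm, orderOf_dvd_iff_pow_eq_one.mp ((orderOf_dvd_of_pow_eq_one hη).trans ?_), ?_⟩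
    · rw [mul_one, mul_comm q M]
      exact Nat.mul_dvd_mul_right hdM q
    · have h' : jv (1 : Eˣ) (d * 1) ∈ X := by rwa [mul_one]
      rw [← hval h']
      exact congrArg ψ (Subtype.ext (congrArg (jv (1 : Eˣ)) (mul_one d).symm))

/-- A map of the field of level `M q²` over `L` with prescribed value at `j(qτ)` sends every
`j(dτ)` to a series `j(η u^m)`, `η^(qM) = 1`. -/
theorem exists_value {L : Type} [Field L] [Algebra ℚ L] [Algebra L E]
    [Algebra.IsAlgebraic L E] [IsAlgClosed Ω] {N : ℕ} [NeZero N] {q M : ℕ} (hq : q.Prime)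
    (hM : M ≠ 0) (hN : N = M * q * q) (σ : Hecke.X0Field L N →+* Ω)
    (hσC : ∀ c : L, σ (algebraMap L (Hecke.X0Field L N) c) = ι (HahnSeries.C (algebraMap L E c)))
    (hjq : jv (1 : Lˣ) q ∈ Hecke.X0Field L N)
    (hσq : σ ⟨_, hjq⟩ = ι (jv (1 : Eˣ) (q * M)))
    {d : ℕ} (hd : d ∣ N) (h : jv (1 : Lˣ) d ∈ Hecke.X0Field L N) :
    ∃ (η : Eˣ) (m : ℕ), m ≠ 0 ∧ η ^ (q * M) = 1 ∧ σ ⟨_, h⟩ = ι (jv η m) := by
  classical
  set φ := coeffMap (algebraMap L E) with hφ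
  set XE := modularFunctionFieldFullC E N with hXE
  have hd0 : ∀ {e}, e ∣ N → e ≠ 0 := fun he h0 => NeZero.ne N (Nat.eq_zero_of_zero_dvd (h0 ▸ he))
  have hmemE : ∀ e, e ∣ N → jv (1 : Eˣ) e ∈ XE := fun e he => Igusa.jv_mem_full (hd0 he) he
  have hφj : ∀ e, e ≠ 0 → φ (jv (1 : Lˣ) e) = jv (1 : Eˣ) e := fun e he => by
    rw [hφ, Igusa.coeffMap_jv _ _ he, map_one]
  have himg : coeffMap (algebraMap L E) '' divisorExpansionsC L N = divisorExpansionsC E N :=
    MF.coeffMap_image_divisorExpansions _ N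
  have hmap : ∀ x : Hecke.X0Field L N, φ x ∈ XE := fun x => by
    have hx := MF.coeffMap_mem_adjoin (K := E) (S := divisorExpansionsC L N)
      ((mem_X0Field_iff L N).mp x.2)
    rwa [himg] at hx
  let f : Hecke.X0Field L N →+* XE :=
    (φ.comp (Hecke.X0Field L N).val.toRingHom).codRestrict XE.toSubfield hmap
  let : Algebra (Hecke.X0Field L N) XE := f.toAlgebra
  have hC : ∀ c : L, f (algebraMap L _ c) = algebraMap E XE (algebraMap L E c) := fun c =>
    Subtype.ext (by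
      show φ (algebraMap L (LaurentSeries L) c) = algebraMap E (LaurentSeries E) (algebraMap L E c)
      rw [algebraMap_laurentSeries_eq_single, algebraMap_laurentSeries_eq_single, hφ,
        coeffMap_single])
  have : Algebra.IsAlgebraic (Hecke.X0Field L N) XE := by
    refine ⟨?_⟩
    rintro ⟨x, hx⟩
    refine IsIntegral.isAlgebraic ?_
    induction hx using adjoin_induction E with
    | mem z hz =>
      obtain ⟨w, hw, rfl⟩ := himg.symm ▸ hz
      exact isIntegral_algebraMap (A := XE)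
        (x := (⟨w, (mem_X0Field_iff L N).mpr (IntermediateField.subset_adjoin L _ hw)⟩ :
          Hecke.X0Field L N))
    | algebraMap c =>
      obtain ⟨P, hP, hPc⟩ := (Algebra.IsAlgebraic.isAlgebraic (R := L) c).isIntegral
      refine ⟨P.map (algebraMap L (Hecke.X0Field L N)), hP.map _, ?_⟩
      rw [eval₂_map, show (algebraMap (Hecke.X0Field L N) XE).comp (algebraMap L _) =
        (algebraMap E XE).comp (algebraMap L E) from RingHom.ext hC]
      exact (hom_eval₂ P _ (algebraMap E XE) c).symm.trans (by rw [hPc, map_zero])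
    | add y z hy hz ihy ihz =>
      exact IsIntegral.add (x := (⟨y, hy⟩ : XE)) (y := ⟨z, hz⟩) ihy ihz
    | inv y hy ihy => exact IsIntegral.inv (x := (⟨y, hy⟩ : XE)) ihy
    | mul y z hy hz ihy ihz =>
      exact IsIntegral.mul (x := (⟨y, hy⟩ : XE)) (y := ⟨z, hz⟩) ihy ihz
  let : Algebra (Hecke.X0Field L N) Ω := σ.toAlgebra
  let ψ : XE →+* Ω :=
    (IsAlgClosed.lift : XE →ₐ[Hecke.X0Field L N] Ω).toRingHom
  have hψ : ∀ x, ψ (f x) = σ x := fun x =>
    (IsAlgClosed.lift : XE →ₐ[Hecke.X0Field L N] Ω).commutes x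
  have hψE : ∀ c : E, ∃ c' : E, ι (HahnSeries.C c') = ψ (algebraMap E XE c) := fun c => by
    have hci : IsIntegral L c := (Algebra.IsAlgebraic.isAlgebraic c).isIntegral
    set P := (minpoly L c).map (algebraMap L E)
    have hP0 : P ≠ 0 := Polynomial.map_ne_zero (minpoly.ne_zero hci)
    have hroot : (P.map (ι.comp HahnSeries.C)).IsRoot (ψ (algebraMap E XE c)) := by
      rw [IsRoot, eval_map, eval₂_map, show (ι.comp HahnSeries.C).comp (algebraMap L E) =
        (ψ.comp (algebraMap E XE)).comp (algebraMap L E) from RingHom.ext fun a => by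
          simp only [RingHom.comp_apply, ← hC, hψ, hσC]]
      exact (hom_eval₂ (minpoly L c) (algebraMap L E) (ψ.comp (algebraMap E XE)) c).symm.trans
        (by rw [show eval₂ (algebraMap L E) c (minpoly L c) = 0 from minpoly.aeval L c, map_zero])
    have hmr := (mem_roots (Polynomial.map_ne_zero hP0)).mpr hroot
    rw [(IsAlgClosed.splits P).roots_map] at hmr
    obtain ⟨c', -, hc'⟩ := Multiset.mem_map.mp hmr
    exact ⟨c', hc'⟩
  choose γ0 hγ0 using hψE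
  have hinjC : Function.Injective (ι.comp HahnSeries.C) := (ι.comp HahnSeries.C).injective
  let γ : E →+* E :=
    { toFun := γ0
      map_one' := hinjC (by
        show ι (HahnSeries.C (γ0 1)) = ι (HahnSeries.C 1)
        rw [hγ0, map_one, map_one, map_one, map_one])
      map_mul' := fun x y => hinjC (by
        show ι (HahnSeries.C (γ0 (x * y))) = ι (HahnSeries.C (γ0 x * γ0 y))
        rw [hγ0, map_mul, map_mul, map_mul, map_mul, hγ0, hγ0])
      map_zero' := hinjC (by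
        show ι (HahnSeries.C (γ0 0)) = ι (HahnSeries.C 0)
        rw [hγ0, map_zero, map_zero, map_zero, map_zero])
      map_add' := fun x y => hinjC (by
        show ι (HahnSeries.C (γ0 (x + y))) = ι (HahnSeries.C (γ0 x + γ0 y))
        rw [hγ0, map_add, map_add, map_add, map_add, hγ0, hγ0]) }
  let ι' := ι.comp (coeffMap γ)
  have hψC : ∀ a : E, ψ (algebraMap E XE a) = ι' (HahnSeries.C a) := fun a => by
    show _ = ι (coeffMap γ (HahnSeries.C a))
    rw [Igusa.coeffMap_C]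
    exact (hγ0 a).symm
  have hqN : q ∣ N := hN ▸ dvd_mul_left q (M * q)
  have hval : ∀ {e : ℕ} (he : e ∣ N) (he' : jv (1 : Lˣ) e ∈ Hecke.X0Field L N),
      ψ ⟨_, hmemE e he⟩ = σ ⟨_, he'⟩ := fun {e} he he' => by
    rw [← hψ]
    exact congrArg ψ (Subtype.ext (hφj e (hd0 he)).symm)
  obtain ⟨η, m, hm, hη, hηval⟩ := conj_all ι' ψ hψC hq hM (fun e he => hmemE e (hN ▸ he))
    (hmemE q hqN) (by
      rw [hval hqN hjq, hσq]
      show _ = ι (coeffMap γ _)
      rw [Igusa.coeffMap_jv γ _ (mul_ne_zero hq.ne_zero hM), map_one])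
    d (hN ▸ hd) (hmemE d hd)
  refine ⟨Units.map (γ : E →* E) η, m, hm, by rw [← map_pow, hη, map_one], ?_⟩
  rw [← hval hd h, hηval]
  show ι (coeffMap γ _) = _
  rw [Igusa.coeffMap_jv γ _ hm]

end Fermat.Agent.SquareLevel.Cusps
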