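import Mathlib
import Fermat.Prelude.Def_ModularCurve_LaurentCoeff

/-!
# Roots of `P(X) - J G(X)` for `J` with a pole
-/

noncomputable section

namespace Fermat.Agent.SquareLevel.Cusps

open Polynomial ModularCurve

variable {R : Type*} [CommRing R] [IsDomain R]

/-- Leading term of a monic integral polynomial at a series with a pole. -/
theorem eval_pole {P : ℤ[X]} (hP : P.Monic) {τ : LaurentSeries R} (hτ : τ ≠ 0)
    (hneg : τ.order < 0) :
    P.eval₂ (Int.castRingHom _) τ ≠ 0 ∧
      (P.eval₂ (Int.castRingHom _) τ).order = P.natDegree * τ.order ∧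
      (P.eval₂ (Int.castRingHom _) τ).leadingCoeff = τ.leadingCoeff ^ P.natDegree := by
  have hpow : ∀ i : ℕ, (τ ^ i).order = i * τ.order ∧ (τ ^ i).leadingCoeff = τ.leadingCoeff ^ i := by
    intro i
    induction i with
    | zero => simp
    | succ i ih =>
      rw [pow_succ, HahnSeries.leadingCoeff_mul, HahnSeries.order_mul (pow_ne_zero _ hτ) hτ,
        ih.1, ih.2, pow_succ]
      exact ⟨by push_cast; ring, rfl⟩
  set d := P.natDegree
  set S := P.eval₂ (Int.castRingHom (LaurentSeries R)) τ
  have hco : ∀ j : ℤ, j ≤ d * τ.order → S.coeff j = (τ ^ d).coeff j := by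
    intro j hj
    have hS : S = ∑ i ∈ Finset.range (d + 1),
        Int.castRingHom (LaurentSeries R) (P.coeff i) * τ ^ i := eval₂_eq_sum_range _ _
    rw [hS, HahnSeries.coeff_sum, Finset.sum_range_succ, add_eq_right.mpr ?_]
    · rw [show P.coeff d = 1 from hP, map_one, one_mul]
    · refine Finset.sum_eq_zero fun i hi => ?_
      rw [Finset.mem_range] at hi
      have hlt : j < (τ ^ i).order := by
        rw [(hpow i).1]
        have : (i : ℤ) < d := by exact_mod_cast hi
        nlinarith
      rw [eq_intCast, ← zsmul_eq_mul, HahnSeries.coeff_smul,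
        HahnSeries.coeff_eq_zero_of_lt_order hlt, smul_zero]
  have hlead : S.coeff (d * τ.order) = τ.leadingCoeff ^ d := by
    rw [hco _ le_rfl, ← (hpow d).2, HahnSeries.leadingCoeff_eq, (hpow d).1]
  have hne : τ.leadingCoeff ^ d ≠ 0 :=
    pow_ne_zero _ (HahnSeries.leadingCoeff_eq_zero.not.mpr hτ)
  have hS0 : S ≠ 0 := fun h => hne (by rw [← hlead, h]; rfl)
  have hord : S.order = d * τ.order := by
    refine le_antisymm (HahnSeries.order_le_of_coeff_ne_zero (by rw [hlead]; exact hne)) ?_
    by_contra h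
    push Not at h
    have h1 := hco _ h.le
    rw [HahnSeries.coeff_eq_zero_of_lt_order (x := τ ^ d) (by rw [(hpow d).1]; exact h),
      ← HahnSeries.leadingCoeff_eq, HahnSeries.leadingCoeff_eq_zero] at h1
    exact hS0 h1
  exact ⟨hS0, hord, by rw [HahnSeries.leadingCoeff_eq, hord, hlead]⟩

/-- A root with a pole has an invertible leading coefficient. -/
theorem isUnit_leadingCoeff {P G : ℤ[X]} (hP : P.Monic) (hG : G.Monic)
    (hdeg : G.natDegree < P.natDegree) {J τ : LaurentSeries R} (hJ : J.leadingCoeff = 1)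
    (hτ : τ ≠ 0) (hneg : τ.order < 0)
    (hroot : P.eval₂ (Int.castRingHom _) τ = J * G.eval₂ (Int.castRingHom _) τ) :
    IsUnit τ.leadingCoeff := by
  have h := congrArg HahnSeries.leadingCoeff hroot
  rw [HahnSeries.leadingCoeff_mul, hJ, one_mul, (eval_pole hP hτ hneg).2.2,
    (eval_pole hG hτ hneg).2.2] at h
  obtain ⟨k, hk⟩ := Nat.exists_eq_add_of_lt hdeg
  rw [hk, add_assoc, pow_add] at h
  have h1 : τ.leadingCoeff ^ (k + 1) = 1 :=
    mul_left_cancel₀ (pow_ne_zero _ (HahnSeries.leadingCoeff_eq_zero.not.mpr hτ))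
      (h.trans (mul_one _).symm)
  exact IsUnit.of_pow_eq_one h1 (Nat.succ_ne_zero k)

omit [IsDomain R] in
/-- A series without negative terms is a power series. -/
theorem exists_powerSeries {τ : LaurentSeries R} (h : 0 ≤ τ.order) :
    ∃ x : PowerSeries R, HahnSeries.ofPowerSeries ℤ R x = τ := by
  refine ⟨PowerSeries.mk fun n => τ.coeff n, ?_⟩
  ext j
  rw [PowerSeries.coeff_coe]
  split_ifs with hj
  · exact (HahnSeries.coeff_eq_zero_of_lt_order (lt_of_lt_of_le hj h)).symm
  · rw [PowerSeries.coeff_mk, Int.natAbs_of_nonneg (not_lt.mp hj)]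

omit [IsDomain R] in
/-- Among the roots some has a pole. -/
theorem exists_root_pole {P G : ℤ[X]} (hG : G.Monic) {J : LaurentSeries R}
    {i : ℤ} (hi : i < 0) (hJ : J.coeff i ≠ 0) {s : Multiset (LaurentSeries R)}
    (hs : P.map (Int.castRingHom _) - C J * G.map (Int.castRingHom _) =
      (s.map fun τ => X - C τ).prod) :
    ∃ τ ∈ s, τ ≠ 0 ∧ τ.order < 0 := by
  by_contra! h
  have h' : ∀ τ ∈ s, ∃ x : PowerSeries R, HahnSeries.ofPowerSeries ℤ R x = τ := fun τ hτ => by
    rcases eq_or_ne τ 0 with rfl | h0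
    · exact ⟨0, map_zero _⟩
    · exact exists_powerSeries (h τ hτ h0)
  choose f hf using h'
  set e := HahnSeries.ofPowerSeries ℤ R
  have hprod : (s.map fun τ => X - C τ).prod =
      ((s.attach.map fun τ : {x // x ∈ s} => X - C (f τ.1 τ.2)).prod).map e := by
    rw [Polynomial.map_multiset_prod, Multiset.map_map]
    conv_lhs => rw [← Multiset.attach_map_val s, Multiset.map_map]
    refine congrArg _ (Multiset.map_congr rfl fun τ _ => ?_)
    simp [e, hf]
  have hc := congrArg (fun p : Polynomial (LaurentSeries R) => (p.coeff G.natDegree).coeff i)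
    (hs.trans hprod)
  simp only [coeff_sub, coeff_map, coeff_C_mul] at hc
  rw [show G.coeff G.natDegree = 1 from hG, map_one, mul_one,
    PowerSeries.coeff_coe, if_pos hi, HahnSeries.coeff_sub] at hc
  rw [eq_intCast, ← zsmul_one, HahnSeries.coeff_smul, HahnSeries.coeff_one, if_neg hi.ne,
    smul_zero, zero_sub,
    neg_eq_zero] at hc
  exact hJ hc

variable {k : Type*} [Field k]

/-- Over every residual zero of `G` lies the constant term of a root. -/
theorem exists_root_at (res : R →+* k) {P G : ℤ[X]} (hP : P.Monic) (hG : G.Monic)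
    (hdeg : G.natDegree < P.natDegree) {J : LaurentSeries R} (hJ : J.leadingCoeff = 1)
    (hJneg : J.order < 0) {s : Multiset (LaurentSeries R)}
    (hs : P.map (Int.castRingHom _) - C J * G.map (Int.castRingHom _) =
      (s.map fun τ => X - C τ).prod)
    {α : k} (hα : (G.map (Int.castRingHom k)).eval α = 0) :
    ∃ τ ∈ s, 0 ≤ τ.order ∧ res (τ.coeff 0) = α := by
  classical
  have hroot : ∀ τ ∈ s, P.eval₂ (Int.castRingHom _) τ = J * G.eval₂ (Int.castRingHom _) τ :=
    fun τ hτ => by
    have h := congrArg (Polynomial.eval τ) hs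
    rw [eval_sub, eval_mul, eval_C, eval_map, eval_map] at h
    rw [← sub_eq_zero, h, eval_multiset_prod, Multiset.map_map]
    exact Multiset.prod_eq_zero (Multiset.mem_map.mpr ⟨τ, hτ, by simp⟩)
  have hJ0 : J ≠ 0 := fun h => one_ne_zero (hJ.symm.trans (by rw [h, HahnSeries.leadingCoeff_zero]))
  obtain ⟨τ₁, hτ₁, hτ₁0, hτ₁neg⟩ := exists_root_pole (P := P) hG hJneg
    (by rw [← HahnSeries.leadingCoeff_eq, hJ]; exact one_ne_zero) hs
  by_contra! h
  set a : LaurentSeries k := HahnSeries.C α
  have hfac : ∀ τ ∈ s, a - coeffMap res τ ≠ 0 ∧ (a - coeffMap res τ).order ≤ 0 ∧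
      (τ.order < 0 → (a - coeffMap res τ).order < 0) := by
    intro τ hτ
    by_cases hneg : τ.order < 0
    · have hτ0 : τ ≠ 0 := fun h0 => by simp [h0] at hneg
      have hne : (a - coeffMap res τ).coeff τ.order ≠ 0 := by
        rw [HahnSeries.coeff_sub, show a = HahnSeries.single 0 α from rfl,
            HahnSeries.coeff_single_of_ne hneg.ne,
          zero_sub, neg_ne_zero, coeffMap_coeff, ← HahnSeries.leadingCoeff_eq]
        exact ((isUnit_leadingCoeff hP hG hdeg hJ hτ0 hneg (hroot τ hτ)).map res).ne_zero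
      have := HahnSeries.order_le_of_coeff_ne_zero hne
      exact ⟨fun h0 => hne (by rw [h0]; rfl), by omega, fun _ => lt_of_le_of_lt this hneg⟩
    · have hne : (a - coeffMap res τ).coeff 0 ≠ 0 := by
        rw [HahnSeries.coeff_sub, show a = HahnSeries.single 0 α from rfl,
            HahnSeries.coeff_single_same, coeffMap_coeff,
          sub_ne_zero]
        exact (h τ hτ (not_lt.mp hneg)).symm
      exact ⟨fun h0 => hne (by rw [h0]; rfl), HahnSeries.order_le_of_coeff_ne_zero hne,
        fun h0 => absurd h0 hneg⟩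
  -- the product has a pole
  have hprod : ∀ t : Multiset (LaurentSeries R), (∀ τ ∈ t, τ ∈ s) →
      (t.map fun τ => a - coeffMap res τ).prod ≠ 0 ∧
        (t.map fun τ => a - coeffMap res τ).prod.order ≤ 0 := by
    intro t
    induction t using Multiset.induction with
    | empty => simp
    | cons x t ih =>
      intro ht
      obtain ⟨h1, h2⟩ := ih fun τ hτ => ht τ (Multiset.mem_cons_of_mem hτ)
      obtain ⟨h3, h4, -⟩ := hfac x (ht x (Multiset.mem_cons_self x t))
      rw [Multiset.map_cons, Multiset.prod_cons]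
      exact ⟨mul_ne_zero h3 h1, by rw [HahnSeries.order_mul h3 h1]; omega⟩
  obtain ⟨t, rfl⟩ := Multiset.exists_cons_of_mem hτ₁
  obtain ⟨h1, h2⟩ := hprod t fun τ hτ => Multiset.mem_cons_of_mem hτ
  obtain ⟨h3, -, h4⟩ := hfac τ₁ hτ₁
  have e := congrArg (fun p => (p.map (coeffMap res)).eval a) hs
  simp only [Polynomial.map_sub, Polynomial.map_mul, Polynomial.map_C, Polynomial.map_map,
    eval_sub, eval_mul, eval_C] at e
  have hint : ∀ Q : ℤ[X], (Q.map ((coeffMap res).comp (Int.castRingHom _))).eval a =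
      HahnSeries.C ((Q.map (Int.castRingHom k)).eval α) := fun Q => by
    rw [RingHom.ext_int ((coeffMap res).comp (Int.castRingHom _))
      ((HahnSeries.C : k →+* LaurentSeries k).comp (Int.castRingHom k)), ← Polynomial.map_map,
      eval_map_apply]
  rw [hint, hint, hα, map_zero, mul_zero, sub_zero, Polynomial.map_multiset_prod, Multiset.map_map,
    eval_multiset_prod, Multiset.map_map] at e
  have e' : HahnSeries.C ((P.map (Int.castRingHom k)).eval α) =
      (a - coeffMap res τ₁) * (t.map fun τ => a - coeffMap res τ).prod := by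
    rw [e, Multiset.map_cons, Multiset.prod_cons]
    simp [Function.comp_def]
  have ho := congrArg HahnSeries.order e'
  rw [HahnSeries.order_C, HahnSeries.order_mul h3 h1] at ho
  have := h4 hτ₁neg
  omega

end Fermat.Agent.SquareLevel.Cusps
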