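import Fermat.Prelude.Thm_IsLocalRing_isAdicComplete_of_module_finite
import Fermat.Agent.SquareLevel.Setting

/-!
# The coefficient ring `W[ζ_q]`
-/

noncomputable section

namespace Fermat.Agent.SquareLevel.Cusps

open Polynomial

variable {W : Type} [CommRing W] [IsDomain W] [IsDiscreteValuationRing W]
  [IsAdicComplete (IsLocalRing.maximalIdeal W) W]
  {E : Type} [Field E] [CharZero E] [Algebra W E] {q : ℕ}

omit [CharZero E] in
/-- Roots of unity of order prime to `q` lie in `W`. -/
theorem exists_eq_of_pow_eq_one [IsAlgClosed (IsLocalRing.ResidueField W)] (hq : q.Prime)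
    (hmax : IsLocalRing.maximalIdeal W = Ideal.span {(q : W)})
    (hinj : Function.Injective (algebraMap W E)) {M : ℕ} (hM : M ≠ 0) (hqM : ¬ q ∣ M) {x : E}
    (hx : x ^ M = 1) : ∃ w : W, algebraMap W E w = x := by
  classical
  set k := IsLocalRing.ResidueField W
  have : HenselianLocalRing W :=
    { (inferInstance : IsLocalRing W) with
      is_henselian := fun f hf a h1 h2 =>
        HenselianRing.is_henselian (I := IsLocalRing.maximalIdeal W) f hf a h1 (h2.map _) }
  have hqk : (q : k) = 0 := by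
    rw [← map_natCast (IsLocalRing.residue W), IsLocalRing.residue_eq_zero_iff, hmax]
    exact Ideal.mem_span_singleton_self _
  have : CharP k q := (CharP.charP_iff_prime_eq_zero hq).mpr hqk
  have : NeZero (M : k) := ⟨fun h => hqM ((CharP.cast_eq_zero_iff k q M).mp h)⟩
  have : NeZero M := ⟨hM⟩
  obtain ⟨z, hz⟩ := HasEnoughRootsOfUnity.exists_primitiveRoot k M
  have hsimp : ∀ a : k, a ^ M = 1 →
      ∃ w : W, w ^ M = 1 ∧ IsLocalRing.residue W w = a := fun a ha => by
    have hta := (HenselianLocalRing.TFAE W).out 0 1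
    obtain ⟨w, hw, hwa⟩ := hta.mp inferInstance (X ^ M - 1 : W[X])
      (by simpa using monic_X_pow_sub_C (1 : W) hM) a (by simp [ha]) (by
        simp only [derivative_sub, derivative_X_pow, derivative_one, sub_zero, map_mul,
          map_natCast, map_pow, aeval_X]
        refine mul_ne_zero (NeZero.ne _) (pow_ne_zero _ ?_)
        rintro rfl
        simp [zero_pow hM] at ha)
    exact ⟨w, by simpa [sub_eq_zero] using hw, hwa⟩
  obtain ⟨w, hw, hwz⟩ := hsimp z hz.pow_eq_one
  have hwp : IsPrimitiveRoot w M := by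
    refine ⟨hw, fun l hl => hz.dvd_of_pow_eq_one l ?_⟩
    rw [← hwz, ← map_pow, hl, map_one]
  obtain ⟨i, -, hi⟩ := (hwp.map_of_injective hinj).eq_pow_of_pow_eq_one hx
  exact ⟨w ^ i, by rw [map_pow, hi]⟩

/-- `(ζ - 1)^(q-1)` is `q` times an element congruent to `-1` modulo `ζ - 1`. -/
theorem exists_sub_one_pow_eq {q : ℕ} (hq : q.Prime) {A : Type*} [CommRing A] [IsDomain A] {z : A}
    (hπ0 : z - 1 ≠ 0) (hzq : z ^ q = 1) :
    ∃ d d' : A, (z - 1) ^ (q - 1) = (q : A) * d ∧ d = -1 + (z - 1) * d' := by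
  set π := z - 1 with hπ
  obtain ⟨r, hr⟩ : ∃ r, q = r + 2 := ⟨q - 2, by have := hq.two_le; omega⟩
  have h : ∀ j ∈ Finset.range r, ∃ c : ℕ, q.choose (j + 2) = q * c := fun j hj => by
    refine hq.dvd_choose_self (by omega) ?_
    simp only [Finset.mem_range] at hj
    omega
  choose! c hc using h
  have hb := add_pow π 1 q
  rw [show π + 1 = z by simp [hπ], hzq, hr, Finset.sum_range_succ', Finset.sum_range_succ',
    Finset.sum_range_succ] at hb
  simp only [one_pow, mul_one, pow_zero, Nat.choose_zero_right, Nat.cast_one,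
    Nat.choose_self, Nat.choose_one_right, zero_add, pow_one] at hb
  refine ⟨-(1 + π * ∑ j ∈ Finset.range r, π ^ j * (c j : A)),
    -∑ j ∈ Finset.range r, π ^ j * (c j : A), ?_, by ring⟩
  refine mul_left_cancel₀ hπ0 ?_
  rw [show q - 1 = r + 1 by omega, ← pow_succ']
  have hs : ∑ j ∈ Finset.range r, π ^ (j + 1 + 1) * (((r + 2).choose (j + 1 + 1) : ℕ) : A) =
      (q : A) * (π * (π * ∑ j ∈ Finset.range r, π ^ j * (c j : A))) := by
    rw [Finset.mul_sum, Finset.mul_sum, Finset.mul_sum]
    refine Finset.sum_congr rfl fun j hj => ?_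
    rw [← hr, hc j hj]
    push_cast
    ring
  have e : π ^ q = π ^ r * π * π := by rw [hr]; ring
  rw [hs, ← hr, e] at hb
  linear_combination -hb

/-- `W[ζ_q]` is a coefficient ring. -/
theorem exists_seriesBase (hq : q.Prime)
    (hmax : IsLocalRing.maximalIdeal W = Ideal.span {(q : W)})
    (hinj : Function.Injective (algebraMap W E)) {ζ : E} (hζ : IsPrimitiveRoot ζ q) :
    ∃ (B : SeriesBase W q) (_ : IsPrincipalIdealRing B.R) (_ : CharZero B.R)
      (_ : HenselianLocalRing B.R) (i : B.R →+* E),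
      Function.Injective i ∧ (∀ w, i (B.coe w) = algebraMap W E w) ∧ ∃ z, i z = ζ := by
  classical
  set R := Algebra.adjoin W ({ζ} : Set E) with hR
  have hint : IsIntegral W ζ :=
    ⟨X ^ q - 1, monic_X_pow_sub (n := q) (by simp [hq.pos]), by simp [hζ.pow_eq_one]⟩
  have : Module.Finite W R := Module.Finite.iff_fg.mpr hint.fg_adjoin_singleton
  have : Algebra.IsIntegral W R := Algebra.IsIntegral.of_finite W R
  have : IsNoetherianRing R := IsNoetherianRing.of_finite W R
  have : CharZero R := charZero_of_injective_ringHom (f :=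
    (Int.castRingHom R)) (fun a b h => by
      have := congrArg (R.val : R → E) h
      simpa using this)
  have hinjR : Function.Injective (algebraMap W R) := fun a b h =>
    hinj (congrArg (fun r : R => (r : E)) h)
  set z : R := ⟨ζ, Algebra.subset_adjoin rfl⟩ with hz
  set π : R := z - 1 with hπ
  have hπ0 : π ≠ 0 := fun h => by
    have := congrArg (fun r : R => (r : E)) h
    simp only [hπ, hz, AddSubgroupClass.coe_sub, OneMemClass.coe_one, ZeroMemClass.coe_zero,
      sub_eq_zero] at this
    exact hζ.ne_one hq.one_lt this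
  have hzq : z ^ q = 1 := Subtype.ext (by simpa [hz] using hζ.pow_eq_one)
  -- `π^(q-1) = q·d`
  obtain ⟨d, d', hd, hd'⟩ := exists_sub_one_pow_eq hq hπ0 hzq
  have hπmem : ∀ P : Ideal R, P.IsMaximal → π ∈ P := fun P hP => by
    have := hP
    have hc : (P.comap (algebraMap W R)).IsMaximal :=
      Ideal.isMaximal_comap_of_isIntegral_of_isMaximal P
    have hqP : (q : R) ∈ P := by
      have : (q : W) ∈ P.comap (algebraMap W R) := by
        rw [IsLocalRing.eq_maximalIdeal hc, hmax]
        exact Ideal.mem_span_singleton_self _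
      simpa using this
    exact hP.isPrime.mem_of_pow_mem (q - 1) (hd ▸ P.mul_mem_right _ hqP)
  have hπu : ¬ IsUnit π := fun h => by
    obtain ⟨P, hP⟩ := Ideal.exists_maximal R
    exact hP.ne_top (Ideal.eq_top_of_isUnit_mem _ (hπmem P hP) h)
  have hdu : IsUnit d := by
    by_contra h
    obtain ⟨P, hP, hdP⟩ := exists_max_ideal_of_mem_nonunits h
    refine hP.ne_top ((Ideal.eq_top_iff_one _).mpr ?_)
    have : π * d' - d ∈ P := P.sub_mem (P.mul_mem_right _ (hπmem P hP)) hdP
    rwa [show π * d' - d = 1 by rw [hd']; ring] at this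
  obtain ⟨du, hdu⟩ := hdu
  have hqπ : π ∣ (q : R) := by
    refine ⟨π ^ (q - 2) * (du⁻¹ : Rˣ), ?_⟩
    have := hq.two_le
    rw [← mul_assoc, ← pow_succ', show q - 2 + 1 = q - 1 by omega, hd, ← hdu, mul_assoc,
      Units.mul_inv, mul_one]
  -- `R = W + πR`
  have hdec : ∀ r : R, ∃ w : W, π ∣ r - algebraMap W R w := by
    rintro ⟨r, hr⟩
    induction hr using Algebra.adjoin_induction with
    | mem x hx =>
      rw [Set.mem_singleton_iff] at hx
      subst hx
      exact ⟨1, 1, by simp [hπ, hz]⟩
    | algebraMap w => exact ⟨w, 0, by rw [mul_zero, sub_eq_zero]; rfl⟩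
    | add x y hx hy ihx ihy =>
      obtain ⟨a, ha⟩ := ihx
      obtain ⟨b, hb⟩ := ihy
      refine ⟨a + b, ?_⟩
      have h := dvd_add ha hb
      rwa [show (⟨x, hx⟩ : R) - algebraMap W R a + (⟨y, hy⟩ - algebraMap W R b) =
        ⟨x + y, R.add_mem hx hy⟩ - algebraMap W R (a + b) by
          rw [map_add, show (⟨x + y, R.add_mem hx hy⟩ : R) = ⟨x, hx⟩ + ⟨y, hy⟩ from rfl]; ring] at h
    | mul x y hx hy ihx ihy =>
      obtain ⟨a, ha⟩ := ihx
      obtain ⟨b, hb⟩ := ihy
      refine ⟨a * b, ?_⟩
      have h := dvd_add (ha.mul_right (⟨y, hy⟩ : R)) (hb.mul_left (algebraMap W R a))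
      rwa [show ((⟨x, hx⟩ : R) - algebraMap W R a) * ⟨y, hy⟩ +
          algebraMap W R a * (⟨y, hy⟩ - algebraMap W R b) =
        ⟨x * y, R.mul_mem hx hy⟩ - algebraMap W R (a * b) by
          rw [map_mul, show (⟨x * y, R.mul_mem hx hy⟩ : R) = ⟨x, hx⟩ * ⟨y, hy⟩ from rfl]; ring] at h
  choose w0 hw0 using hdec
  have hcomap : ∀ w : W, π ∣ algebraMap W R w ↔ IsLocalRing.residue W w = 0 := fun w => by
    rw [IsLocalRing.residue_eq_zero_iff]
    refine ⟨fun h => (IsLocalRing.mem_maximalIdeal _).mpr fun hu => ?_, fun h => ?_⟩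
    · exact hπu (isUnit_of_dvd_unit h (hu.map _))
    · rw [hmax, Ideal.mem_span_singleton] at h
      obtain ⟨c, rfl⟩ := h
      rw [map_mul, map_natCast]
      exact hqπ.mul_right _
  have hres : ∀ (r : R) (w : W), π ∣ r - algebraMap W R w →
      IsLocalRing.residue W (w0 r) = IsLocalRing.residue W w := fun r w h => by
    rw [← sub_eq_zero, ← map_sub, ← hcomap, map_sub]
    have := dvd_sub h (hw0 r)
    rwa [show r - algebraMap W R w - (r - algebraMap W R (w0 r)) =
      algebraMap W R (w0 r) - algebraMap W R w by ring] at this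
  let res : R →+* IsLocalRing.ResidueField W :=
    { toFun := fun r => IsLocalRing.residue W (w0 r)
      map_one' := by rw [hres 1 1 (by simp), map_one]
      map_zero' := by rw [hres 0 0 (by simp), map_zero]
      map_add' := fun x y => by
        rw [hres (x + y) (w0 x + w0 y) ?_, map_add]
        have := dvd_add (hw0 x) (hw0 y)
        rwa [show x - algebraMap W R (w0 x) + (y - algebraMap W R (w0 y)) =
          x + y - algebraMap W R (w0 x + w0 y) by rw [map_add]; ring] at this
      map_mul' := fun x y => by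
        rw [hres (x * y) (w0 x * w0 y) ?_, map_mul]
        have := dvd_add ((hw0 x).mul_right y) ((hw0 y).mul_left (algebraMap W R (w0 x)))
        rwa [show (x - algebraMap W R (w0 x)) * y +
            algebraMap W R (w0 x) * (y - algebraMap W R (w0 y)) =
          x * y - algebraMap W R (w0 x * w0 y) by rw [map_mul]; ring] at this }
  have hres0 : ∀ r : R, res r = 0 ↔ π ∣ r := fun r => by
    refine ⟨fun h => ?_, fun h => ?_⟩
    · have := dvd_add (hw0 r) ((hcomap (w0 r)).mpr h)
      rwa [sub_add_cancel] at this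
    · show IsLocalRing.residue W (w0 r) = 0
      rw [hres r 0 (by simpa using h), map_zero]
  -- the local ring
  have hmaxeq : ∀ P : Ideal R, P.IsMaximal → P = Ideal.span {π} := fun P hP => by
    refine le_antisymm (fun r hr => ?_) ((Ideal.span_singleton_le_iff_mem _).mpr (hπmem P hP))
    rw [Ideal.mem_span_singleton]
    obtain ⟨c, hc⟩ := hw0 r
    have hw : algebraMap W R (w0 r) ∈ P := by
      rw [show algebraMap W R (w0 r) = r - π * c by rw [← hc]; ring]
      exact P.sub_mem hr (P.mul_mem_right _ (hπmem P hP))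
    refine (hres0 r).mp ((IsLocalRing.residue_eq_zero_iff _).mpr ?_)
    exact (IsLocalRing.mem_maximalIdeal _).mpr fun hu =>
      hP.ne_top (Ideal.eq_top_of_isUnit_mem _ hw (hu.map _))
  obtain ⟨P0, hP0⟩ := Ideal.exists_maximal R
  have hloc : IsLocalRing R := IsLocalRing.of_unique_max_ideal
    ⟨Ideal.span {π}, hmaxeq P0 hP0 ▸ hP0, fun P hP => hmaxeq P hP⟩
  have hmR : IsLocalRing.maximalIdeal R = Ideal.span {π} :=
    hmaxeq _ (IsLocalRing.maximalIdeal.isMaximal R)
  have hpid : IsPrincipalIdealRing R := by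
    refine ((tfae_of_isNoetherianRing_of_isLocalRing_of_isDomain R).out 4 0).mp ?_
    exact ⟨⟨π, hmR⟩⟩
  have : IsLocalHom (algebraMap W R) := ⟨fun w hw => by
    by_contra h
    exact hπu (isUnit_of_dvd_unit ((hcomap w).mpr ((IsLocalRing.residue_eq_zero_iff _).mpr
      ((IsLocalRing.mem_maximalIdeal _).mpr h))) hw)⟩
  have := IsLocalRing.isAdicComplete_of_module_finite (𝒪 := W) (T := R)
  have hhens : HenselianLocalRing R :=
    { hloc with
      is_henselian := fun f hf a h1 h2 =>
        HenselianRing.is_henselian (I := IsLocalRing.maximalIdeal R) f hf a h1 (h2.map _) }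
  refine ⟨{ R := R, coe := algebraMap W R, res := res, res_coe := fun w => hres _ w (by simp)
            pi := π, pi_ne := hπ0, res_eq_zero_iff := hres0
            q_eq := ⟨q - 1, du⁻¹, ?_⟩ }, hpid, inferInstance, hhens, R.val.toRingHom,
    Subtype.val_injective, fun _ => rfl, z, rfl⟩
  rw [hd, ← hdu, mul_comm, mul_assoc, Units.mul_inv, mul_one]

end Fermat.Agent.SquareLevel.Cusps
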